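import Fermat.Prelude.Def_CuspForm_HeckeGaloisRepDatum
import Fermat.Prelude.Def_GaloisRep_DeformationRingData

set_option autoImplicit false

open Polynomial
open scoped TensorProduct

namespace Fermat.Agent.S54

/-- Conjugation invariance of the characteristic polynomial through a `GaloisRepAdic.Equiv`. -/
theorem charpoly_eq_of_equiv {A : Type} [CommRing A] [IsLocalRing A] {ρ₁ ρ₂ : GaloisRepAdic A}
    (e : GaloisRepAdic.Equiv ρ₁ ρ₂) (σ : AlgebraicClosure ℚ ≃ₐ[ℚ] AlgebraicClosure ℚ) :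
    LinearMap.charpoly (ρ₂.ρ σ) = LinearMap.charpoly (ρ₁.ρ σ) := by
  have h : ρ₂.ρ σ = e.toLinearEquiv.conj (ρ₁.ρ σ) := by
    apply LinearMap.ext
    intro x
    rw [LinearEquiv.conj_apply_apply, e.map_apply, LinearEquiv.apply_symm_apply]
  rw [h, LinearEquiv.charpoly_conj]

/-- The characteristic polynomial of a base change along a ring homomorphism. -/
theorem charpoly_baseChangeAlong {A B : Type} [CommRing A] [IsLocalRing A] [CommRing B]
    [IsLocalRing B] (φ : A →+* B) (hφ : IsLocalHom φ) (ρ : GaloisRepAdic A)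
    (σ : AlgebraicClosure ℚ ≃ₐ[ℚ] AlgebraicClosure ℚ) :
    LinearMap.charpoly ((ρ.baseChangeAlong φ hφ).ρ σ) = (LinearMap.charpoly (ρ.ρ σ)).map φ := by
  let _ : Algebra A B := φ.toAlgebra
  exact LinearMap.charpoly_baseChange (ρ.ρ σ) B


/-- Every value of `π` lies in any `𝒪`-subalgebra of `T` containing the `π (T_ℓ)`. -/
theorem pi_mem_of_T_mem {N : ℕ} [NeZero N] {S : Set ℕ} {T : Type} [CommRing T]
    (π : CuspForm.heckeAlgebra N 2 S →+* T) (hS : ∀ q : ℕ, q.Prime → q ∣ N → q ∈ S)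
    (B : Subring T)
    (hT : ∀ (ℓ : ℕ) (hℓ : ℓ.Prime) (hℓN : ¬ ℓ ∣ N) (hℓS : ℓ ∉ S),
      π (CuspForm.heckeAlgebra.T hℓ hℓN hℓS) ∈ B)
    (t : CuspForm.heckeAlgebra N 2 S) : π t ∈ B := by
  obtain ⟨x, hx⟩ := t
  induction hx using Algebra.adjoin_induction with
  | mem x hx =>
    rcases hx with ⟨ℓ, hℓ, hℓN, hℓS, rfl⟩ | ⟨q, hqN, hq, hqS, rfl⟩
    · exact hT ℓ hℓ hℓN hℓS
    · exact absurd (hS q hq hqN) hqS
  | algebraMap r =>
    have : (⟨algebraMap ℤ _ r, Subalgebra.algebraMap_mem _ r⟩ : CuspForm.heckeAlgebra N 2 S) =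
        ((r : ℤ) : CuspForm.heckeAlgebra N 2 S) := by
      apply Subtype.ext
      simp
    rw [this, map_intCast]
    exact intCast_mem B r
  | add x y hx hy ihx ihy =>
    have : (⟨x + y, Subalgebra.add_mem _ hx hy⟩ : CuspForm.heckeAlgebra N 2 S) =
        ⟨x, hx⟩ + ⟨y, hy⟩ := rfl
    rw [this, map_add]
    exact B.add_mem ihx ihy
  | mul x y hx hy ihx ihy =>
    have : (⟨x * y, Subalgebra.mul_mem _ hx hy⟩ : CuspForm.heckeAlgebra N 2 S) =
        ⟨x, hx⟩ * ⟨y, hy⟩ := rfl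
    rw [this, map_mul]
    exact B.mul_mem ihx ihy


/-- The formal part of `R ↠ T`, assuming existence of Frobenius elements at every prime. -/
theorem result_of_frob
    (hFrob : ∀ ℓ : ℕ, ℓ.Prime → ∃ (A : ValuationSubring (AlgebraicClosure ℚ))
      (σ : AlgebraicClosure ℚ ≃ₐ[ℚ] AlgebraicClosure ℚ), A.LiesOverPrime ℓ ∧ A.IsFrobeniusAt σ ℓ)
    {𝒪 : Type} [CommRing 𝒪] [IsDomain 𝒪] [IsDiscreteValuationRing 𝒪]
    [IsAdicComplete (IsLocalRing.maximalIdeal 𝒪) 𝒪]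
    {ρbar : ResidualGaloisRep (IsLocalRing.ResidueField 𝒪)}
    {𝒟 : ∀ ⦃A : Type⦄ [CommRing A] [IsLocalRing A] [Algebra 𝒪 A], GaloisRepAdic A → Prop}
    (D : GaloisRep.DeformationRingData 𝒪 ρbar 𝒟) {N : ℕ} [NeZero N] {S : Set ℕ}
    {θ : CuspForm.heckeAlgebra N 2 S →+* IsLocalRing.ResidueField 𝒪}
    {T : Type} [CommRing T] [IsLocalRing T] [IsNoetherianRing T]
    [IsAdicComplete (IsLocalRing.maximalIdeal T) T] [Algebra 𝒪 T] [IsLocalHom (algebraMap 𝒪 T)]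
    [Module.Finite 𝒪 T] [Module.Free 𝒪 T] (H : CuspForm.HeckeGaloisRepDatum N S 𝒪 θ T)
    (hS : ∀ q : ℕ, q.Prime → q ∣ N → q ∈ S) (h𝒟 : 𝒟 H.ρ)
    (hres : H.ρ.residual.IsEquiv
      (ρbar.baseChangeAlong (IsLocalRing.ResidueField.map (algebraMap 𝒪 T)))) :
    ∃ φ : D.R →ₐ[𝒪] T, Function.Surjective φ ∧ ∃ hφ : IsLocalHom (φ : D.R →+* T),
      (D.ρ.baseChangeAlong (φ : D.R →+* T) hφ).IsEquiv H.ρ := by
  obtain ⟨φ, hφ, ⟨e⟩⟩ := (D.universal T H.residue_surjective H.ρ h𝒟 hres).exists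
  refine ⟨φ, ?_, hφ, ⟨e⟩⟩
  -- surjectivity
  have hTmem : ∀ (ℓ : ℕ) (hℓ : ℓ.Prime) (hℓN : ¬ ℓ ∣ N) (hℓS : ℓ ∉ S),
      H.π (CuspForm.heckeAlgebra.T hℓ hℓN hℓS) ∈ φ.range.toSubring := by
    intro ℓ hℓ hℓN hℓS
    obtain ⟨A, σ, hA, hσ⟩ := hFrob ℓ hℓ
    have h1 := H.charpoly_frob ℓ hℓ hℓN hℓS A hA σ hσ
    have h2 := charpoly_eq_of_equiv e σ
    have h3 := charpoly_baseChangeAlong (φ : D.R →+* T) hφ D.ρ σ
    rw [h2, h3] at h1
    have h4 := congrArg (fun P : T[X] => P.coeff 1) h1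
    simp only [coeff_map, coeff_add, coeff_sub, coeff_X_pow, coeff_C_mul, coeff_X_one,
      coeff_C] at h4
    norm_num at h4
    refine ⟨-(LinearMap.charpoly (D.ρ.ρ σ)).coeff 1, ?_⟩
    rw [map_neg]
    simpa using congrArg Neg.neg h4
  have hrange : Set.range H.π ⊆ (φ.range : Set T) := by
    rintro _ ⟨t, rfl⟩
    exact pi_mem_of_T_mem H.π hS φ.range.toSubring hTmem t
  have htop : φ.range = ⊤ := by
    apply top_unique
    rw [← H.adjoin_range_π]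
    exact Algebra.adjoin_le hrange
  intro y
  have hy : y ∈ φ.range := htop ▸ Algebra.mem_top
  exact hy

end Fermat.Agent.S54
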